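import Mathlib.AlgebraicGeometry.EllipticCurve.Affine.Point
import Mathlib.RingTheory.Valuation.Basic
import Mathlib.Tactic

/-!
# S59 / CR-I (helper240): the nodal normal form `y² + xy = x³ + a·x`, `0 < |a| < 1`

`K` a field with a valuation `v`.  Every Weierstrass curve over an algebraically closed valued
field with multiplicative reduction can be brought (by an integral change of variables) into the
form `N(a) : y² + xy = x³ + a x` with `0 < v a < 1`; the node of the reduction is `(0, 0)` and the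
points reducing to the node form the "annulus" `v x < 1`.

Here: the elementary valuation analysis of `N(a)` (no Weierstrass-curve API yet):

* classes of the points of the annulus: `ClM` (`v x ≤ v a`), `BrP` (`v a < v x`, `v y < v x`),
  `BrN` (`v a < v x`, `v (y + x) < v x`);
* `chord_bound` : two points of the same class (and same `v x` in the branch classes) with
  `x' ≠ x`: the slope `λ` of the chord through `P'` and `-P` satisfies `1 ≤ v λ`, `1 ≤ v (λ + 1)`;
* `tangent_bound` : the same for the tangent at a point of class `ClM`.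
-/

set_option autoImplicit false
set_option linter.unusedSectionVars false

namespace Fermat.Agent.S59.H240

variable {K : Type*} [Field K] {Γ₀ : Type*} [LinearOrderedCommGroupWithZero Γ₀]
  {v : Valuation K Γ₀}

/-! ### ultrametric toolkit -/

lemma vadd_le {a b : K} {g : Γ₀} (ha : v a ≤ g) (hb : v b ≤ g) : v (a + b) ≤ g :=
  (v.map_add a b).trans (max_le ha hb)

lemma vadd_lt {a b : K} {g : Γ₀} (ha : v a < g) (hb : v b < g) : v (a + b) < g :=
  (v.map_add a b).trans_lt (max_lt ha hb)

lemma vsub_le {a b : K} {g : Γ₀} (ha : v a ≤ g) (hb : v b ≤ g) : v (a - b) ≤ g :=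
  (v.map_sub a b).trans (max_le ha hb)

lemma vsub_lt {a b : K} {g : Γ₀} (ha : v a < g) (hb : v b < g) : v (a - b) < g :=
  (v.map_sub a b).trans_lt (max_lt ha hb)

lemma vneg_le {a : K} {g : Γ₀} (ha : v a ≤ g) : v (-a) ≤ g := by rwa [Valuation.map_neg]

lemma vneg_lt {a : K} {g : Γ₀} (ha : v a < g) : v (-a) < g := by rwa [Valuation.map_neg]

/-- `v (a + b) = v a` if `v b < v a`. -/
lemma vadd_eq_left {a b : K} (h : v b < v a) : v (a + b) = v a :=
  v.map_add_eq_of_lt_left h

/-- `v (a + b) = v b` if `v a < v b`. -/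
lemma vadd_eq_right {a b : K} (h : v a < v b) : v (a + b) = v b := by
  rw [add_comm]; exact v.map_add_eq_of_lt_left h

lemma vnat_le_one (n : ℕ) : v (n : K) ≤ 1 := by
  induction n with
  | zero => simp
  | succ n ih => push_cast; exact vadd_le ih (by simp)

lemma vtwo_le_one : v (2 : K) ≤ 1 := by
  have := vnat_le_one (v := v) 2
  simpa using this

lemma vthree_le_one : v (3 : K) ≤ 1 := by
  have := vnat_le_one (v := v) 3
  simpa using this

lemma vmul_le_of_le_one_left {a b : K} (ha : v a ≤ 1) : v (a * b) ≤ v b := by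
  rw [map_mul]; exact mul_le_of_le_one_left' ha

lemma vmul_le_of_le_one_right {a b : K} (hb : v b ≤ 1) : v (a * b) ≤ v a := by
  rw [map_mul]; exact mul_le_of_le_one_right' hb

lemma vmul_lt_of_lt_one_right {a b : K} (ha : a ≠ 0) (hb : v b < 1) : v (a * b) < v a := by
  rw [map_mul]
  exact mul_lt_of_lt_one_right ((Valuation.pos_iff v).mpr ha) hb

lemma vmul_lt_of_lt_one_left {a b : K} (hb : b ≠ 0) (ha : v a < 1) : v (a * b) < v b := by
  rw [map_mul]
  exact mul_lt_of_lt_one_left ((Valuation.pos_iff v).mpr hb) ha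

lemma vsq_lt_self {x : K} (hx0 : x ≠ 0) (hx : v x < 1) : v (x ^ 2) < v x := by
  rw [pow_two]; exact vmul_lt_of_lt_one_right hx0 hx

lemma vsq_le_self {x : K} (hx : v x ≤ 1) : v (x ^ 2) ≤ v x := by
  rw [pow_two]; exact vmul_le_of_le_one_right hx

/-- In a linearly ordered group with zero, `g * g ≤ h * h → g ≤ h`. -/
lemma le_of_mul_self_le {g h : Γ₀} (hgh : g * g ≤ h * h) : g ≤ h := by
  by_contra hlt
  rw [not_le] at hlt
  have h0 : 0 ≤ h := zero_le
  have hg0 : 0 < g := lt_of_le_of_lt h0 hlt
  have h1 : h * h ≤ h * g := mul_le_mul' le_rfl hlt.le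
  have h2 : h * g < g * g := by
    exact mul_lt_mul_of_pos_right hlt hg0
  exact absurd (lt_of_le_of_lt h1 h2) (not_lt.mpr hgh)

lemma lt_of_mul_self_lt {g h : Γ₀} (hgh : g * g < h * h) : g < h := by
  by_contra hle
  rw [not_lt] at hle
  have : h * h ≤ g * g := mul_le_mul' hle hle
  exact absurd hgh (not_lt.mpr this)

/-! ### the normal form -/

/-- The equation of the normal form `N(a)`. -/
def NodeEq (a x y : K) : Prop := y ^ 2 + x * y = x ^ 3 + a * x

/-- middle class -/
def ClM (v : Valuation K Γ₀) (a x : K) : Prop := v x ≤ v a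

/-- branch `y ≈ 0` -/
def BrP (v : Valuation K Γ₀) (a x y : K) : Prop := v a < v x ∧ v y < v x

/-- branch `y ≈ -x` -/
def BrN (v : Valuation K Γ₀) (a x y : K) : Prop := v a < v x ∧ v (y + x) < v x

variable {a x y x' y' : K}

lemma NodeEq.neg (h : NodeEq a x y) : NodeEq a x (-y - x) := by
  unfold NodeEq at h ⊢
  linear_combination h

lemma NodeEq.factor (h : NodeEq a x y) : y * (y + x) = x * (x ^ 2 + a) := by
  unfold NodeEq at h
  linear_combination h

/-- On the annulus, `y` is small as well. -/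
lemma NodeEq.val_y_lt_one (h : NodeEq a x y) (ha : v a < 1) (hx : v x < 1) : v y < 1 := by
  by_contra hy
  rw [not_lt] at hy
  have hxy : v x < v y := hx.trans_le hy
  have h1 : v (y + x) = v y := vadd_eq_left hxy
  have h2 : v (x ^ 2 + a) < 1 :=
    vadd_lt (by rw [map_pow]; exact pow_lt_one₀ zero_le hx (by norm_num)) ha
  have h3 := congrArg v h.factor
  rw [map_mul, map_mul, h1] at h3
  have h4 : v x * v (x ^ 2 + a) < 1 := by
    calc v x * v (x ^ 2 + a) ≤ 1 * v (x ^ 2 + a) := mul_le_mul' hx.le le_rfl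
      _ = v (x ^ 2 + a) := one_mul _
      _ < 1 := h2
  have h5 : (1 : Γ₀) ≤ v y * v y := by
    calc (1 : Γ₀) = 1 * 1 := (one_mul 1).symm
      _ ≤ v y * v y := mul_le_mul' hy hy
  rw [h3] at h5
  exact absurd h4 (not_lt.mpr h5)

/-- The three classes exhaust the annulus. -/
lemma NodeEq.class_cases (h : NodeEq a x y) (hx : v x < 1) :
    ClM v a x ∨ BrP v a x y ∨ BrN v a x y := by
  rcases le_or_gt (v x) (v a) with hM | hlo
  · exact Or.inl hM
  right
  have hx0 : x ≠ 0 := by
    rintro rfl
    rw [map_zero] at hlo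
    exact not_lt_zero hlo
  by_contra hcon
  rw [not_or] at hcon
  have hy : v x ≤ v y := by
    by_contra hlt
    exact hcon.1 ⟨hlo, not_le.mp hlt⟩
  have hyx : v x ≤ v (y + x) := by
    by_contra hlt
    exact hcon.2 ⟨hlo, not_le.mp hlt⟩
  have h2 : v (x ^ 2 + a) < v x := vadd_lt (vsq_lt_self hx0 hx) hlo
  have h3 := congrArg v h.factor
  rw [map_mul, map_mul] at h3
  have h4 : v x * v (x ^ 2 + a) < v x * v x :=
    mul_lt_mul_of_pos_left h2 ((Valuation.pos_iff v).mpr hx0)
  have h5 : v x * v x ≤ v y * v (y + x) := mul_le_mul' hy hyx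
  rw [h3] at h5
  exact absurd h4 (not_lt.mpr h5)

/-- The two branches are exchanged by negation. -/
lemma BrP.neg (h : BrP v a x y) : BrN v a x (-y - x) := by
  refine ⟨h.1, ?_⟩
  have : -y - x + x = -y := by ring
  rw [this, Valuation.map_neg]
  exact h.2

lemma BrN.neg (h : BrN v a x y) : BrP v a x (-y - x) := by
  refine ⟨h.1, ?_⟩
  have : -y - x = -(y + x) := by ring
  rw [this, Valuation.map_neg]
  exact h.2

lemma BrN.val_y (h : BrN v a x y) : v y = v x := by
  have : y = -x + (y + x) := by ring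
  rw [this, vadd_eq_left (by rw [Valuation.map_neg]; exact h.2), Valuation.map_neg]

/-- The branches are disjoint. -/
lemma BrP.not_brN (h : BrP v a x y) : ¬ BrN v a x y := by
  intro hN
  have := hN.val_y
  exact absurd h.2 (by rw [this]; exact lt_irrefl _)

/-! ### the middle class -/

section Middle

variable (ha0 : a ≠ 0) (ha : v a < 1)
include ha0 ha

lemma ClM.val_y_le (hM : ClM v a x) (h : NodeEq a x y) : v y ≤ v a := by
  by_contra hy
  rw [not_le] at hy
  have hxy : v x < v y := lt_of_le_of_lt hM hy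
  have h1 : v (y + x) = v y := vadd_eq_left hxy
  have h2 : v (x ^ 2 + a) ≤ v a := by
    refine vadd_le ?_ le_rfl
    rw [map_pow]
    calc v x ^ 2 = v x * v x := pow_two _
      _ ≤ v a * 1 := mul_le_mul' hM (hM.trans ha.le)
      _ = v a := mul_one _
  have h3 := congrArg v h.factor
  rw [map_mul, map_mul, h1] at h3
  have h4 : v x * v (x ^ 2 + a) ≤ v a * v a := mul_le_mul' hM h2
  rw [← h3] at h4
  exact absurd (le_of_mul_self_le h4) (not_le.mpr hy)

lemma ClM.val_x_cube_lt (hM : ClM v a x) : v (x ^ 3) < v a * v a := by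
  have hapos : 0 < v a := (Valuation.pos_iff v).mpr ha0
  rw [map_pow]
  calc v x ^ 3 = v x * v x * v x := by rw [pow_succ, pow_two]
    _ ≤ v a * v a * v a := mul_le_mul' (mul_le_mul' hM hM) hM
    _ < v a * v a * 1 := by
        apply mul_lt_mul_of_pos_left ha
        exact mul_pos hapos hapos
    _ = v a * v a := mul_one _

lemma ClM.val_x_sq_lt (hM : ClM v a x) : v (x ^ 2) < v a := by
  have hapos : 0 < v a := (Valuation.pos_iff v).mpr ha0
  rw [map_pow]
  calc v x ^ 2 = v x * v x := pow_two _
    _ ≤ v a * v a := mul_le_mul' hM hM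
    _ < v a * 1 := mul_lt_mul_of_pos_left ha hapos
    _ = v a := mul_one _

/-- In the middle class `v (y - a) = v a`. -/
lemma ClM.val_y_sub (hM : ClM v a x) (h : NodeEq a x y) : v (y - a) = v a := by
  have hapos : 0 < v a := (Valuation.pos_iff v).mpr ha0
  have hy := hM.val_y_le ha0 ha h
  refine le_antisymm (vsub_le hy le_rfl) ?_
  by_contra hlt
  rw [not_le] at hlt
  -- `v y = v a`
  have hya : v y = v a := by
    have : y = a + (y - a) := by ring
    rw [this, vadd_eq_left hlt]
  -- `y² = x³ - x (y - a)`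
  have key : y ^ 2 = x ^ 3 - x * (y - a) := by
    unfold NodeEq at h
    linear_combination h
  have h1 : v (x * (y - a)) < v a * v a := by
    rw [map_mul]
    calc v x * v (y - a) ≤ v a * v (y - a) := mul_le_mul' hM le_rfl
      _ < v a * v a := mul_lt_mul_of_pos_left hlt hapos
  have h2 : v (y ^ 2) < v a * v a := by
    rw [key]
    exact vsub_lt (hM.val_x_cube_lt ha0 ha) h1
  rw [map_pow, pow_two, hya] at h2
  exact lt_irrefl _ h2

/-- In the middle class `v (y + x + a) = v a`. -/
lemma ClM.val_y_add (hM : ClM v a x) (h : NodeEq a x y) : v (y + x + a) = v a := by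
  have := hM.val_y_sub ha0 ha h.neg
  have e : -y - x - a = -(y + x + a) := by ring
  rwa [e, Valuation.map_neg] at this

end Middle

/-! ### the chord through `P'` and `-P` -/

/-- The basic identity behind the chord bound. -/
lemma chord_identity (h : NodeEq a x y) (h' : NodeEq a x' y') :
    (y' + y + x) * (y' - y - x + x') = (x' - x) * (x' ^ 2 + x' * x + x ^ 2 + a + y + x) := by
  unfold NodeEq at h h'
  linear_combination h' - h

/-- Middle class: `v (x' - x) ≤ v (y' + y + x)`. -/
lemma chord_bound_M (ha0 : a ≠ 0) (ha : v a < 1) (h : NodeEq a x y) (h' : NodeEq a x' y')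
    (hM : ClM v a x) (hM' : ClM v a x') : v (x' - x) ≤ v (y' + y + x) := by
  have hapos : 0 < v a := (Valuation.pos_iff v).mpr ha0
  have hy := hM.val_y_le ha0 ha h
  have hy' := hM'.val_y_le ha0 ha h'
  have hR : v (x' ^ 2 + x' * x + x ^ 2 + a + y + x) = v a := by
    have e : x' ^ 2 + x' * x + x ^ 2 + a + y + x = (y + x + a) + (x' ^ 2 + x' * x + x ^ 2) := by
      ring
    rw [e, vadd_eq_left, hM.val_y_add ha0 ha h]
    rw [hM.val_y_add ha0 ha h]
    refine vadd_lt (vadd_lt (hM'.val_x_sq_lt ha0 ha) ?_) (hM.val_x_sq_lt ha0 ha)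
    rw [map_mul]
    calc v x' * v x ≤ v a * v a := mul_le_mul' hM' hM
      _ < v a * 1 := mul_lt_mul_of_pos_left ha hapos
      _ = v a := mul_one _
  have hL : v (y' - y - x + x') ≤ v a :=
    vadd_le (vsub_le (vsub_le hy' hy) hM) hM'
  have key := congrArg v (chord_identity h h')
  rw [map_mul, map_mul, hR] at key
  by_contra hlt
  rw [not_le] at hlt
  have h0 : 0 < v (x' - x) := lt_of_le_of_lt zero_le hlt
  have h1 : v (y' + y + x) * v (y' - y - x + x') < v (x' - x) * v a := by
    calc v (y' + y + x) * v (y' - y - x + x') ≤ v (y' + y + x) * v a :=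
          mul_le_mul' le_rfl hL
      _ < v (x' - x) * v a := mul_lt_mul_of_pos_right hlt hapos
  rw [key] at h1
  exact lt_irrefl _ h1

/-- Branch classes: `v (y' + y + x) = v x`. -/
lemma chord_val_P (hxx : v x = v x') (hP : BrP v a x y) (hP' : BrP v a x' y') :
    v (y' + y + x) = v x := by
  have : y' + y + x = x + (y' + y) := by ring
  rw [this, vadd_eq_left]
  exact vadd_lt (hxx ▸ hP'.2) hP.2

lemma chord_val_N (hxx : v x = v x') (hN : BrN v a x y) (hN' : BrN v a x' y') :
    v (y' + y + x) = v x := by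
  have : y' + y + x = y' + (y + x) := by ring
  rw [this, vadd_eq_left, hN'.val_y, hxx]
  rw [hN'.val_y, ← hxx]
  exact hN.2

/-- **Chord bound**: two points of the annulus in the same class. -/
theorem chord_bound (ha0 : a ≠ 0) (ha : v a < 1) (h : NodeEq a x y) (h' : NodeEq a x' y')
    (hcl : (ClM v a x ∧ ClM v a x') ∨ (v x = v x' ∧ BrP v a x y ∧ BrP v a x' y') ∨
      (v x = v x' ∧ BrN v a x y ∧ BrN v a x' y')) :
    v (x' - x) ≤ v (y' + y + x) ∧ v (x' - x) ≤ v (y' + y + x') := by
  have hsub : ∀ {g : Γ₀}, v x ≤ g → v x' ≤ g → v (x' - x) ≤ g := fun h1 h2 => vsub_le h2 h1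
  rcases hcl with ⟨hM, hM'⟩ | ⟨hxx, hP, hP'⟩ | ⟨hxx, hN, hN'⟩
  · refine ⟨chord_bound_M ha0 ha h h' hM hM', ?_⟩
    -- apply the bound to the negated points
    have := chord_bound_M ha0 ha h.neg h'.neg hM hM'
    have e : -y' - x' + (-y - x) + x = -(y' + y + x') := by ring
    rwa [e, Valuation.map_neg] at this
  · refine ⟨?_, ?_⟩
    · rw [chord_val_P hxx hP hP']
      exact hsub le_rfl hxx.ge
    · have := chord_val_N hxx hP.neg hP'.neg
      have e : -y' - x' + (-y - x) + x = -(y' + y + x') := by ring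
      rw [e, Valuation.map_neg] at this
      rw [this]
      exact hsub le_rfl hxx.ge
  · refine ⟨?_, ?_⟩
    · rw [chord_val_N hxx hN hN']
      exact hsub le_rfl hxx.ge
    · have := chord_val_P hxx hN.neg hN'.neg
      have e : -y' - x' + (-y - x) + x = -(y' + y + x') := by ring
      rw [e, Valuation.map_neg] at this
      rw [this]
      exact hsub le_rfl hxx.ge

/-- **Tangent bound** at a point of the middle class. -/
theorem tangent_bound (ha0 : a ≠ 0) (ha : v a < 1) (h : NodeEq a x y) (hM : ClM v a x) :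
    v (2 * y + x) ≤ v (3 * x ^ 2 + a - y) ∧ v (2 * y + x) ≤ v (3 * x ^ 2 + a + y + x) := by
  have hy := hM.val_y_le ha0 ha h
  have hH : v (2 * y + x) ≤ v a := vadd_le ((vmul_le_of_le_one_left vtwo_le_one).trans hy) hM
  have h3 : v (3 * x ^ 2) < v a :=
    lt_of_le_of_lt (vmul_le_of_le_one_left vthree_le_one) (hM.val_x_sq_lt ha0 ha)
  constructor
  · have e : 3 * x ^ 2 + a - y = -(y - a) + 3 * x ^ 2 := by ring
    have h1 : v (-(y - a)) = v a := by rw [Valuation.map_neg, hM.val_y_sub ha0 ha h]
    have h2 : v (-(y - a) + 3 * x ^ 2) = v a := by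
      rw [vadd_eq_left (by rw [h1]; exact h3), h1]
    rw [e, h2]
    exact hH
  · have e : 3 * x ^ 2 + a + y + x = (y + x + a) + 3 * x ^ 2 := by ring
    have h1 : v (y + x + a) = v a := hM.val_y_add ha0 ha h
    have h2 : v ((y + x + a) + 3 * x ^ 2) = v a := by
      rw [vadd_eq_left (by rw [h1]; exact h3), h1]
    rw [e, h2]
    exact hH

end Fermat.Agent.S59.H240
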