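import Fermat.Agent.S59.H240.Node.Basic

/-!
# S59 / CR-I (helper240): the nodal normal form as a Weierstrass curve

* `gX`, `gY` : the two partial derivatives of the Weierstrass polynomial (up to sign), the
  intrinsic "distance to the singular point of the reduction" is `max (v gX) (v gY)`;
* `InE0 W v P` : `P` has nonsingular reduction (or lies in the kernel of reduction);
* `nodeCurve a` : `y² + xy = x³ + a x`;
* `node_sub_inE0` : on `nodeCurve a` (`0 < v a < 1`) the difference of two points of the annulus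
  `v x < 1` lying in the same class belongs to `E₀`.
-/

set_option autoImplicit false
set_option linter.unusedSectionVars false

namespace Fermat.Agent.S59.H240

open WeierstrassCurve WeierstrassCurve.Affine

variable {K : Type*} [Field K] {Γ₀ : Type*} [LinearOrderedCommGroupWithZero Γ₀]
  {v : Valuation K Γ₀}

/-- `-∂F/∂x` of the Weierstrass polynomial. -/
def gX (W : WeierstrassCurve K) (x y : K) : K := W.a₁ * y - (3 * x ^ 2 + 2 * W.a₂ * x + W.a₄)

/-- `∂F/∂y` of the Weierstrass polynomial. -/
def gY (W : WeierstrassCurve K) (x y : K) : K := 2 * y + W.a₁ * x + W.a₃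

/-- The subgroup `E₀` (as a predicate): the point at infinity, the points with non-integral
`x`-coordinate, and the integral points with nonsingular reduction. -/
def InE0 (W : Affine K) (v : Valuation K Γ₀) : W.Point → Prop
  | .zero => True
  | .some x y _ => 1 < v x ∨ v (gX W x y) = 1 ∨ v (gY W x y) = 1

@[simp] lemma inE0_zero (W : Affine K) : InE0 W v (0 : W.Point) := trivial

lemma inE0_some {W : Affine K} {x y : K} (h : W.Nonsingular x y) :
    InE0 W v (Point.some x y h) ↔ (1 < v x ∨ v (gX W x y) = 1 ∨ v (gY W x y) = 1) := Iff.rfl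

/-- The normal form `N(a) : y² + xy = x³ + a x`. -/
def nodeCurve (a : K) : WeierstrassCurve K := ⟨1, 0, 0, a, 0⟩

variable {a x y x' y' : K}

@[simp] lemma nodeCurve_a₁ : (nodeCurve a).a₁ = 1 := rfl
@[simp] lemma nodeCurve_a₂ : (nodeCurve a).a₂ = 0 := rfl
@[simp] lemma nodeCurve_a₃ : (nodeCurve a).a₃ = 0 := rfl
@[simp] lemma nodeCurve_a₄ : (nodeCurve a).a₄ = a := rfl
@[simp] lemma nodeCurve_a₆ : (nodeCurve a).a₆ = 0 := rfl

lemma nodeCurve_equation_iff : (nodeCurve a).toAffine.Equation x y ↔ NodeEq a x y := by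
  rw [Affine.equation_iff]
  simp only [nodeCurve_a₁, nodeCurve_a₂, nodeCurve_a₃, nodeCurve_a₄, nodeCurve_a₆, NodeEq]
  constructor <;> intro h <;> linear_combination h

lemma nodeCurve_negY : (nodeCurve a).toAffine.negY x y = -y - x := by
  simp [Affine.negY]

lemma nodeCurve_gX : gX (nodeCurve a) x y = y - 3 * x ^ 2 - a := by
  simp [gX]; ring

lemma nodeCurve_gY : gY (nodeCurve a) x y = 2 * y + x := by
  simp [gY]

lemma nodeCurve_addX (ℓ : K) : (nodeCurve a).toAffine.addX x' x ℓ = ℓ ^ 2 + ℓ - x' - x := by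
  simp [Affine.addX]

/-- The key identity: `x³` lies in the ideal generated by `gX`, `gY`, `a` (modulo the equation). -/
lemma node_x_cube (h : NodeEq a x y) :
    x ^ 3 = (y - 3 * x ^ 2 - a) * (-2 * (y - 3 * x ^ 2 - a) - 6 * x ^ 2 - 4 * a - 2 * x)
      - 3 * x ^ 2 * (2 * y + x) - a * (6 * x ^ 2 + 2 * a) := by
  unfold NodeEq at h
  linear_combination 2 * h

/-- A point of `N(a)` with `1 ≤ v x` belongs to `E₀`. -/
lemma node_inE0_of_le (ha : v a < 1) (h : (nodeCurve a).toAffine.Nonsingular x y)
    (hx : 1 ≤ v x) : InE0 (nodeCurve a).toAffine v (Point.some x y h) := by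
  rw [inE0_some]
  rcases hx.lt_or_eq with hlt | heq
  · exact Or.inl hlt
  right
  have hE := nodeCurve_equation_iff.mp h.1
  have hx1 : v x ≤ 1 := heq.ge
  -- `y` is integral
  have hy1 : v y ≤ 1 := by
    by_contra hy
    rw [not_le] at hy
    have h1 : v (y + x) = v y := vadd_eq_left (lt_of_le_of_lt hx1 hy)
    have h2 : v (x ^ 2 + a) ≤ 1 :=
      vadd_le (by rw [map_pow]; exact pow_le_one₀ zero_le hx1) ha.le
    have h3 := congrArg v hE.factor
    rw [map_mul, map_mul, h1] at h3
    have h4 : v x * v (x ^ 2 + a) ≤ 1 := by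
      calc v x * v (x ^ 2 + a) ≤ 1 * 1 := mul_le_mul' hx1 h2
        _ = 1 := one_mul 1
    have h5 : (1 : Γ₀) < v y * v y := by
      calc (1 : Γ₀) = 1 * 1 := (one_mul 1).symm
        _ < v y * v y := by
          calc (1 : Γ₀) * 1 < v y * 1 := by rw [one_mul, mul_one]; exact hy
            _ ≤ v y * v y := mul_le_mul' le_rfl hy.le
    rw [h3] at h5
    exact absurd h4 (not_le.mpr h5)
  rw [nodeCurve_gX, nodeCurve_gY]
  set G : K := y - 3 * x ^ 2 - a with hG
  set H : K := 2 * y + x with hH
  have hx2 : v (x ^ 2) ≤ 1 := by rw [map_pow]; exact pow_le_one₀ zero_le hx1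
  have hG1 : v G ≤ 1 :=
    vsub_le (vsub_le hy1 ((vmul_le_of_le_one_left vthree_le_one).trans hx2)) ha.le
  have hH1 : v H ≤ 1 := vadd_le ((vmul_le_of_le_one_left vtwo_le_one).trans hy1) hx1
  by_contra hcon
  rw [not_or] at hcon
  have hGlt : v G < 1 := lt_of_le_of_ne hG1 hcon.1
  have hHlt : v H < 1 := lt_of_le_of_ne hH1 hcon.2
  have key := node_x_cube hE
  rw [← hG, ← hH] at key
  have hc : v (x ^ 3) < 1 := by
    rw [key]
    refine vsub_lt (vsub_lt ?_ ?_) ?_
    · refine lt_of_le_of_lt (vmul_le_of_le_one_right ?_) hGlt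
      refine vsub_le (vsub_le (vsub_le ?_ ?_) ?_) ?_
      · exact (vmul_le_of_le_one_left (by rw [Valuation.map_neg]; exact vtwo_le_one)).trans hG1
      · exact (vmul_le_of_le_one_right hx2).trans (vnat_le_one 6 |> fun h => by simpa using h)
      · exact (vmul_le_of_le_one_right ha.le).trans (vnat_le_one 4 |> fun h => by simpa using h)
      · exact (vmul_le_of_le_one_left vtwo_le_one).trans hx1
    · exact lt_of_le_of_lt (vmul_le_of_le_one_left
        ((vmul_le_of_le_one_left vthree_le_one).trans hx2)) hHlt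
    · refine lt_of_le_of_lt (vmul_le_of_le_one_right ?_) ha
      refine vadd_le ?_ ?_
      · exact (vmul_le_of_le_one_right hx2).trans (vnat_le_one 6 |> fun h => by simpa using h)
      · exact (vmul_le_of_le_one_left vtwo_le_one).trans ha.le
  rw [map_pow, ← heq, one_pow] at hc
  exact lt_irrefl _ hc

/-- From the slope bounds to the bound on the `x`-coordinate of the sum. -/
lemma one_le_val_addX {ℓ : K} (hx : v x < 1) (hx' : v x' < 1) (h1 : 1 ≤ v ℓ)
    (h2 : 1 ≤ v (ℓ + 1)) : 1 ≤ v (ℓ ^ 2 + ℓ - x' - x) := by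
  have e : ℓ ^ 2 + ℓ - x' - x = ℓ * (ℓ + 1) + (-x' - x) := by ring
  have h3 : (1 : Γ₀) ≤ v (ℓ * (ℓ + 1)) := by
    rw [map_mul]
    calc (1 : Γ₀) = 1 * 1 := (one_mul 1).symm
      _ ≤ v ℓ * v (ℓ + 1) := mul_le_mul' h1 h2
  have h4 : v (-x' - x) < 1 := vsub_lt (vneg_lt hx') hx
  rw [e, vadd_eq_left (lt_of_lt_of_le h4 h3)]
  exact h3

variable [DecidableEq K]

/-- **Main theorem for the normal form.**  On `N(a)`, `0 < v a < 1`, the difference of two points
of the annulus `v x < 1` lying in the same class belongs to `E₀`. -/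
theorem node_sub_inE0 (ha0 : a ≠ 0) (ha : v a < 1)
    (h : (nodeCurve a).toAffine.Nonsingular x y) (h' : (nodeCurve a).toAffine.Nonsingular x' y')
    (hx : v x < 1) (hx' : v x' < 1)
    (hcl : (ClM v a x ∧ ClM v a x') ∨ (v x = v x' ∧ BrP v a x y ∧ BrP v a x' y') ∨
      (v x = v x' ∧ BrN v a x y ∧ BrN v a x' y')) :
    InE0 (nodeCurve a).toAffine v (Point.some x' y' h' - Point.some x y h) := by
  have hE := nodeCurve_equation_iff.mp h.1
  have hE' := nodeCurve_equation_iff.mp h'.1
  rw [sub_eq_add_neg, Point.neg_some]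
  by_cases hxx : x' = x
  · subst hxx
    rcases Affine.Y_eq_of_X_eq h'.1 h.1 rfl with hyy | hyy
    · -- `P' = P`
      subst hyy
      rw [Point.add_of_Y_eq rfl (by rw [Affine.negY_negY])]
      exact inE0_zero _
    · by_cases hyy' : y' = y
      · subst hyy'
        rw [Point.add_of_Y_eq rfl (by rw [Affine.negY_negY])]
        exact inE0_zero _
      · -- `P' = -P ≠ P`: only in the middle class
        have hM : ClM v a x' := by
          rcases hcl with ⟨hM, -⟩ | ⟨-, hP, hP'⟩ | ⟨-, hN, hN'⟩
          · exact hM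
          · exfalso
            have := hP.neg
            rw [← nodeCurve_negY (a := a), ← hyy] at this
            exact hP'.not_brN this
          · exfalso
            have := hN.neg
            rw [← nodeCurve_negY (a := a), ← hyy] at this
            exact this.not_brN hN'
        have hne : y' ≠ (nodeCurve a).toAffine.negY x' ((nodeCurve a).toAffine.negY x' y) := by
          rwa [Affine.negY_negY]
        rw [Point.add_of_Y_ne hne]
        apply node_inE0_of_le ha
        have hs : (nodeCurve a).toAffine.slope x' x' y' ((nodeCurve a).toAffine.negY x' y)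
            = (3 * x' ^ 2 + a - y') / (2 * y' + x') := by
          rw [Affine.slope_of_Y_ne rfl hne, nodeCurve_negY]
          congr 1
          · simp
          · ring
        rw [nodeCurve_addX, hs]
        have hd0 : 2 * y' + x' ≠ 0 := by
          intro h0
          apply hyy'
          have hy : y' = -y - x' := by rw [hyy, nodeCurve_negY]
          linear_combination h0 - hy
        obtain ⟨hb1, hb2⟩ := tangent_bound ha0 ha hE' hM
        have hvd : 0 < v (2 * y' + x') := (Valuation.pos_iff v).mpr hd0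
        apply one_le_val_addX hx' hx'
        · rw [map_div₀, one_le_div₀ hvd]; exact hb1
        · have : (3 * x' ^ 2 + a - y') / (2 * y' + x') + 1
              = (3 * x' ^ 2 + a + y' + x') / (2 * y' + x') := by
            rw [div_add_one hd0]; congr 1; ring
          rw [this, map_div₀, one_le_div₀ hvd]; exact hb2
  · rw [Point.add_of_X_ne hxx]
    apply node_inE0_of_le ha
    rw [nodeCurve_addX, Affine.slope_of_X_ne hxx, nodeCurve_negY]
    have hd0 : x' - x ≠ 0 := sub_ne_zero.mpr hxx
    have hvd : 0 < v (x' - x) := (Valuation.pos_iff v).mpr hd0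
    obtain ⟨hb1, hb2⟩ := chord_bound ha0 ha hE hE' hcl
    have e1 : y' - (-y - x) = y' + y + x := by ring
    apply one_le_val_addX hx hx'
    · rw [e1, map_div₀, one_le_div₀ hvd]; exact hb1
    · have : (y' - (-y - x)) / (x' - x) + 1 = (y' + y + x') / (x' - x) := by
        rw [div_add_one hd0]; congr 1; ring
      rw [this, map_div₀, one_le_div₀ hvd]; exact hb2

end Fermat.Agent.S59.H240
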