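import Fermat.Agent.S59.H240.Node.NormalForm
import Fermat.Agent.Lib.VC.Basic

/-!
# S59 / CR-I (helper240): two points in the same component differ by a point of `E₀`

General integral Weierstrass curve `W` over an algebraically closed valued field, multiplicative
reduction (`v c₄ = 1`), `Δ ≠ 0`.  Intrinsic invariants of an integral point `P = (x, y)`:

* `rad W v x y = max (v gX) (v gY)` (distance to the node; `< 1` iff the reduction is singular),
* the direction `[gX : gY]` modulo the maximal ideal.

`sub_inE0` : if `P`, `P'` are integral points with singular reduction, `rad P' = rad P` and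
`v (gX P * gY P' - gX P' * gY P) < rad P ^ 2`, then `P' - P ∈ E₀`.
-/

set_option autoImplicit false
set_option linter.unusedSectionVars false
set_option linter.unusedVariables false

namespace Fermat.Agent.S59.H240

open WeierstrassCurve WeierstrassCurve.Affine
open Fermat.Agent.S05.SameRed (IntegralCoeffs)
open Fermat.Agent.Lib.VC

variable {K : Type*} [Field K] {Γ₀ : Type*} [LinearOrderedCommGroupWithZero Γ₀]
  {v : Valuation K Γ₀}

/-- The intrinsic distance of an integral point to the singular point of the reduction. -/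
def rad (W : WeierstrassCurve K) (v : Valuation K Γ₀) (x y : K) : Γ₀ :=
  max (v (gX W x y)) (v (gY W x y))

/-! ### invariants of the classes of the normal form -/

section node

variable {a x y x' y' : K}

lemma ClM.val_gX (ha0 : a ≠ 0) (ha : v a < 1) (hM : ClM v a x) (h : NodeEq a x y) :
    v (gX (nodeCurve a) x y) = v a := by
  rw [nodeCurve_gX]
  have e : y - 3 * x ^ 2 - a = (y - a) + -(3 * x ^ 2) := by ring
  have h1 := hM.val_y_sub ha0 ha h
  rw [e, vadd_eq_left, h1]
  rw [h1, Valuation.map_neg]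
  exact lt_of_le_of_lt (vmul_le_of_le_one_left vthree_le_one) (hM.val_x_sq_lt ha0 ha)

lemma ClM.val_gY (ha0 : a ≠ 0) (ha : v a < 1) (hM : ClM v a x) (h : NodeEq a x y) :
    v (gY (nodeCurve a) x y) ≤ v a := by
  rw [nodeCurve_gY]
  exact vadd_le ((vmul_le_of_le_one_left vtwo_le_one).trans (hM.val_y_le ha0 ha h)) hM

lemma ClM.rad_eq (ha0 : a ≠ 0) (ha : v a < 1) (hM : ClM v a x) (h : NodeEq a x y) :
    rad (nodeCurve a) v x y = v a := by
  rw [rad, hM.val_gX ha0 ha h]
  exact max_eq_left (hM.val_gY ha0 ha h)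

lemma BrP.val_gY (hP : BrP v a x y) : v (gY (nodeCurve a) x y) = v x := by
  rw [nodeCurve_gY, add_comm]
  exact vadd_eq_left (lt_of_le_of_lt (vmul_le_of_le_one_left vtwo_le_one) hP.2)

lemma val_x_ne_zero_of_lt (h : v a < v x) : x ≠ 0 := by
  rintro rfl
  rw [map_zero] at h
  exact not_lt_zero h

lemma BrP.val_gX (hx : v x < 1) (hP : BrP v a x y) : v (gX (nodeCurve a) x y) < v x := by
  rw [nodeCurve_gX]
  refine vsub_lt (vsub_lt hP.2 ?_) hP.1
  exact lt_of_le_of_lt (vmul_le_of_le_one_left vthree_le_one)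
    (vsq_lt_self (val_x_ne_zero_of_lt hP.1) hx)

lemma BrP.rad_eq (hx : v x < 1) (hP : BrP v a x y) : rad (nodeCurve a) v x y = v x := by
  rw [rad, hP.val_gY]
  exact max_eq_right (hP.val_gX hx).le

lemma BrN.val_gY (hN : BrN v a x y) : v (gY (nodeCurve a) x y) = v x := by
  rw [nodeCurve_gY]
  have e : 2 * y + x = -x + 2 * (y + x) := by ring
  rw [e, vadd_eq_left, Valuation.map_neg]
  rw [Valuation.map_neg]
  exact lt_of_le_of_lt (vmul_le_of_le_one_left vtwo_le_one) hN.2

lemma BrN.val_sub (hx : v x < 1) (hN : BrN v a x y) :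
    v (gX (nodeCurve a) x y - gY (nodeCurve a) x y) < v x := by
  rw [nodeCurve_gX, nodeCurve_gY]
  have e : y - 3 * x ^ 2 - a - (2 * y + x) = -(y + x) - 3 * x ^ 2 - a := by ring
  rw [e]
  refine vsub_lt (vsub_lt (vneg_lt hN.2) ?_) hN.1
  exact lt_of_le_of_lt (vmul_le_of_le_one_left vthree_le_one)
    (vsq_lt_self (val_x_ne_zero_of_lt hN.1) hx)

lemma BrN.val_gX (hx : v x < 1) (hN : BrN v a x y) : v (gX (nodeCurve a) x y) = v x := by
  have e : gX (nodeCurve a) x y
      = gY (nodeCurve a) x y + (gX (nodeCurve a) x y - gY (nodeCurve a) x y) := by ring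
  rw [e, vadd_eq_left, hN.val_gY]
  rw [hN.val_gY]
  exact hN.val_sub hx

lemma BrN.rad_eq (hx : v x < 1) (hN : BrN v a x y) : rad (nodeCurve a) v x y = v x := by
  rw [rad, hN.val_gY, hN.val_gX hx]
  exact max_self _

/-- Equal invariants force equal classes. -/
theorem node_same_class (ha0 : a ≠ 0) (ha : v a < 1) (h : NodeEq a x y) (h' : NodeEq a x' y')
    (hx : v x < 1) (hx' : v x' < 1)
    (heq : rad (nodeCurve a) v x' y' = rad (nodeCurve a) v x y)
    (hcross : v (gX (nodeCurve a) x y * gY (nodeCurve a) x' y'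
      - gX (nodeCurve a) x' y' * gY (nodeCurve a) x y)
      < rad (nodeCurve a) v x y * rad (nodeCurve a) v x y) :
    (ClM v a x ∧ ClM v a x') ∨ (v x = v x' ∧ BrP v a x y ∧ BrP v a x' y') ∨
      (v x = v x' ∧ BrN v a x y ∧ BrN v a x' y') := by
  rcases h.class_cases hx with hM | hP | hN
  · rcases h'.class_cases hx' with hM' | hP' | hN'
    · exact Or.inl ⟨hM, hM'⟩
    · exfalso
      rw [hM.rad_eq ha0 ha h, hP'.rad_eq hx'] at heq
      exact absurd hP'.1 (by rw [heq]; exact lt_irrefl _)
    · exfalso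
      rw [hM.rad_eq ha0 ha h, hN'.rad_eq hx'] at heq
      exact absurd hN'.1 (by rw [heq]; exact lt_irrefl _)
  · rcases h'.class_cases hx' with hM' | hP' | hN'
    · exfalso
      rw [hM'.rad_eq ha0 ha h', hP.rad_eq hx] at heq
      exact absurd hP.1 (by rw [heq]; exact lt_irrefl _)
    · rw [hP.rad_eq hx, hP'.rad_eq hx'] at heq
      exact Or.inr (Or.inl ⟨heq.symm, hP, hP'⟩)
    · exfalso
      have hxx : v x' = v x := by rw [hP.rad_eq hx, hN'.rad_eq hx'] at heq; exact heq
      have hx0 : 0 < v x := lt_of_le_of_lt zero_le hP.1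
      rw [hP.rad_eq hx] at hcross
      have h1 : v (gX (nodeCurve a) x y * gY (nodeCurve a) x' y') < v x * v x := by
        rw [map_mul, hN'.val_gY, hxx]
        exact mul_lt_mul_of_pos_right (hP.val_gX hx) hx0
      have h2 : v (gX (nodeCurve a) x' y' * gY (nodeCurve a) x y) = v x * v x := by
        rw [map_mul, hN'.val_gX hx', hP.val_gY, hxx]
      have h3 : v (gX (nodeCurve a) x y * gY (nodeCurve a) x' y'
          - gX (nodeCurve a) x' y' * gY (nodeCurve a) x y) = v x * v x := by
        rw [sub_eq_add_neg, vadd_eq_right, Valuation.map_neg, h2]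
        rw [Valuation.map_neg, h2]; exact h1
      rw [h3] at hcross
      exact lt_irrefl _ hcross
  · rcases h'.class_cases hx' with hM' | hP' | hN'
    · exfalso
      rw [hM'.rad_eq ha0 ha h', hN.rad_eq hx] at heq
      exact absurd hN.1 (by rw [heq]; exact lt_irrefl _)
    · exfalso
      have hxx : v x' = v x := by rw [hN.rad_eq hx, hP'.rad_eq hx'] at heq; exact heq
      have hx0 : 0 < v x := lt_of_le_of_lt zero_le hN.1
      rw [hN.rad_eq hx] at hcross
      have h1 : v (gX (nodeCurve a) x' y' * gY (nodeCurve a) x y) < v x * v x := by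
        rw [map_mul, hN.val_gY]
        have := hP'.val_gX hx'
        rw [hxx] at this
        exact mul_lt_mul_of_pos_right this hx0
      have h2 : v (gX (nodeCurve a) x y * gY (nodeCurve a) x' y') = v x * v x := by
        rw [map_mul, hN.val_gX hx, hP'.val_gY, hxx]
      have h3 : v (gX (nodeCurve a) x y * gY (nodeCurve a) x' y'
          - gX (nodeCurve a) x' y' * gY (nodeCurve a) x y) = v x * v x := by
        rw [sub_eq_add_neg, vadd_eq_left, h2]
        rw [Valuation.map_neg, h2]; exact h1
      rw [h3] at hcross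
      exact lt_irrefl _ hcross
    · rw [hN.rad_eq hx, hN'.rad_eq hx'] at heq
      exact Or.inr (Or.inr ⟨heq.symm, hN, hN'⟩)

end node

/-! ### transfer along an integral change of variables -/

section transfer

variable (W : WeierstrassCurve K) (C : VariableChange K)

lemma gY_vc (x y : K) : gY W (vcX C x) (vcY C x y) = (C.u : K) ^ 3 * gY (C • W) x y :=
  polynomialY_eval_vc W C x y

lemma gX_vc (x y : K) : gX W (vcX C x) (vcY C x y)
    = (C.u : K) ^ 4 * gX (C • W) x y - C.s * ((C.u : K) ^ 3 * gY (C • W) x y) :=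
  polynomialX_eval_vc W C x y

variable {W C}

lemma val_gY_vc (hu : v (C.u : K) = 1) (x y : K) :
    v (gY W (vcX C x) (vcY C x y)) = v (gY (C • W) x y) := by
  rw [gY_vc, map_mul, map_pow, hu, one_pow, one_mul]

lemma rad_vc (hu : v (C.u : K) = 1) (hs : v C.s ≤ 1) (x y : K) :
    rad W v (vcX C x) (vcY C x y) = rad (C • W) v x y := by
  have hu3 : v ((C.u : K) ^ 3) = 1 := by rw [map_pow, hu, one_pow]
  have hu4 : v ((C.u : K) ^ 4) = 1 := by rw [map_pow, hu, one_pow]
  have hu0 : (C.u : K) ≠ 0 := C.u.ne_zero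
  unfold rad
  rw [val_gY_vc hu]
  apply le_antisymm
  · refine max_le ?_ (le_max_right _ _)
    rw [gX_vc]
    refine vsub_le ?_ ?_
    · rw [map_mul, hu4, one_mul]; exact le_max_left _ _
    · rw [map_mul, map_mul, hu3, one_mul]
      exact (mul_le_of_le_one_left' hs).trans (le_max_right _ _)
  · refine max_le ?_ (le_max_right _ _)
    have e : (C.u : K) ^ 4 * gX (C • W) x y
        = gX W (vcX C x) (vcY C x y) + C.s * ((C.u : K) ^ 3 * gY (C • W) x y) := by
      rw [gX_vc]; ring
    have : v (gX (C • W) x y) = v ((C.u : K) ^ 4 * gX (C • W) x y) := by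
      rw [map_mul, hu4, one_mul]
    rw [this, e]
    refine vadd_le (le_max_left _ _) ?_
    rw [map_mul, map_mul, hu3, one_mul]
    exact (mul_le_of_le_one_left' hs).trans (le_max_right _ _)

lemma cross_vc (x y x' y' : K) :
    gX W (vcX C x) (vcY C x y) * gY W (vcX C x') (vcY C x' y')
      - gX W (vcX C x') (vcY C x' y') * gY W (vcX C x) (vcY C x y)
    = (C.u : K) ^ 7 * (gX (C • W) x y * gY (C • W) x' y' - gX (C • W) x' y' * gY (C • W) x y) := by
  rw [gX_vc, gX_vc, gY_vc, gY_vc]; ring

lemma val_cross_vc (hu : v (C.u : K) = 1) (x y x' y' : K) :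
    v (gX W (vcX C x) (vcY C x y) * gY W (vcX C x') (vcY C x' y')
      - gX W (vcX C x') (vcY C x' y') * gY W (vcX C x) (vcY C x y))
    = v (gX (C • W) x y * gY (C • W) x' y' - gX (C • W) x' y' * gY (C • W) x y) := by
  rw [cross_vc, map_mul, map_pow, hu, one_pow, one_mul]

lemma val_vcX_le (hu : v (C.u : K) = 1) (hr : v C.r ≤ 1) {x : K} :
    v (vcX C x) ≤ 1 ↔ v x ≤ 1 := by
  have hu2 : v ((C.u : K) ^ 2) = 1 := by rw [map_pow, hu, one_pow]
  unfold vcX
  constructor
  · intro h
    have e : (C.u : K) ^ 2 * x = ((C.u : K) ^ 2 * x + C.r) - C.r := by ring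
    have : v x = v ((C.u : K) ^ 2 * x) := by rw [map_mul, hu2, one_mul]
    rw [this, e]
    exact vsub_le h hr
  · intro h
    refine vadd_le ?_ hr
    rw [map_mul, hu2, one_mul]; exact h

variable [DecidableEq K]

/-- `E₀` is preserved by an integral change of variables. -/
lemma inE0_vcPoint (hu : v (C.u : K) = 1) (hr : v C.r ≤ 1) (hs : v C.s ≤ 1)
    (hN : IntegralCoeffs (C • W).toAffine v) (P : (C • W).toAffine.Point)
    (hP : InE0 (C • W).toAffine v P) : InE0 W.toAffine v (vcPoint W C P) := by
  rcases P with _ | ⟨x, y, h⟩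
  · exact inE0_zero _
  · rw [vcPoint_some, inE0_some]
    rw [inE0_some] at hP
    by_cases hx : v x ≤ 1
    · right
      have hP' : v (gX (C • W) x y) = 1 ∨ v (gY (C • W) x y) = 1 := by
        rcases hP with h1 | h1
        · exact absurd hx (not_le.mpr h1)
        · exact h1
      -- `y` is integral
      have hy : v y ≤ 1 := by
        by_contra hy
        rw [not_le] at hy
        have e := (Affine.equation_iff x y).mp h.1
        have hy2 : y ^ 2 = x ^ 3 + (C • W).a₂ * x ^ 2 + (C • W).a₄ * x + (C • W).a₆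
            - (C • W).a₁ * x * y - (C • W).a₃ * y := by
          linear_combination e
        have h0 : (0 : Γ₀) < v y := lt_trans zero_lt_one hy
        have hlt : v y < v y ^ 2 := by
          rw [pow_two]
          calc v y = v y * 1 := (mul_one _).symm
            _ < v y * v y := mul_lt_mul_of_pos_left hy h0
        have hle : v (x ^ 3 + (C • W).a₂ * x ^ 2 + (C • W).a₄ * x + (C • W).a₆
            - (C • W).a₁ * x * y - (C • W).a₃ * y) ≤ v y := by
          refine vsub_le (vsub_le (vadd_le (vadd_le (vadd_le ?_ ?_) ?_) ?_) ?_) ?_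
          · exact (vpow_le_one hx 3).trans hy.le
          · exact (vmul_le_one hN.a₂ (vpow_le_one hx 2)).trans hy.le
          · exact (vmul_le_one hN.a₄ hx).trans hy.le
          · exact hN.a₆.trans hy.le
          · exact vmul_le_of_le_one_left (vmul_le_one hN.a₁ hx)
          · exact vmul_le_of_le_one_left hN.a₃
        rw [← hy2, map_pow] at hle
        exact absurd hle (not_le.mpr hlt)
      have hgY1 : v (gY (C • W) x y) ≤ 1 := by
        unfold gY
        exact vadd_le (vadd_le (vmul_le_one vtwo_le_one hy) (vmul_le_one hN.a₁ hx)) hN.a₃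
      rcases eq_or_lt_of_le hgY1 with h1 | h1
      · right
        rw [val_gY_vc hu]; exact h1
      · left
        have hX1 : v (gX (C • W) x y) = 1 := by
          rcases hP' with h2 | h2
          · exact h2
          · exact absurd h2 h1.ne
        rw [gX_vc, sub_eq_add_neg, vadd_eq_left]
        · rw [map_mul, map_pow, hu, one_pow, one_mul, hX1]
        · rw [Valuation.map_neg, map_mul, map_mul, map_pow, hu, one_pow, one_mul,
            map_mul, map_pow, hu, one_pow, one_mul, hX1]
          exact lt_of_le_of_lt (mul_le_of_le_one_left' hs) h1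
    · left
      rw [not_le] at hx
      unfold vcX
      have hu2 : v ((C.u : K) ^ 2 * x) = v x := by rw [map_mul, map_pow, hu, one_pow, one_mul]
      rw [vadd_eq_left (by rw [hu2]; exact lt_of_le_of_lt hr hx), hu2]
      exact hx

end transfer

/-! ### the main theorem -/

lemma nodeCurve_integral {a : K} (ha : v a < 1) : IntegralCoeffs (nodeCurve a).toAffine v :=
  ⟨by simp [nodeCurve], by simp [nodeCurve], by simp [nodeCurve], ha.le, by simp [nodeCurve]⟩

variable [DecidableEq K]

/-- `node_sub_inE0` for a curve which is equal to the normal form. -/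
lemma node_sub_inE0' {N : WeierstrassCurve K} {a : K} (hN : N = nodeCurve a)
    (ha0 : a ≠ 0) (ha : v a < 1) {x y x' y' : K}
    (h : N.toAffine.Nonsingular x y) (h' : N.toAffine.Nonsingular x' y')
    (hx : v x ≤ 1) (hx' : v x' ≤ 1) (hrad : rad N v x y < 1)
    (heq : rad N v x' y' = rad N v x y)
    (hcross : v (gX N x y * gY N x' y' - gX N x' y' * gY N x y) < rad N v x y * rad N v x y) :
    InE0 N.toAffine v (Point.some x' y' h' - Point.some x y h) := by
  subst hN
  have hE := nodeCurve_equation_iff.mp h.1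
  have hE' := nodeCurve_equation_iff.mp h'.1
  -- both points lie in the annulus
  have hann : ∀ {x y : K} (h : (nodeCurve a).toAffine.Nonsingular x y), v x ≤ 1 →
      rad (nodeCurve a) v x y < 1 → v x < 1 := by
    intro x y h hx hr
    by_contra hge
    rw [not_lt] at hge
    have := node_inE0_of_le ha h hge
    rw [inE0_some] at this
    rcases this with h1 | h1 | h1
    · exact absurd hx (not_le.mpr h1)
    · have : (1 : Γ₀) ≤ rad (nodeCurve a) v x y := by rw [rad, ← h1]; exact le_max_left _ _
      exact absurd hr (not_lt.mpr this)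
    · have : (1 : Γ₀) ≤ rad (nodeCurve a) v x y := by rw [rad, ← h1]; exact le_max_right _ _
      exact absurd hr (not_lt.mpr this)
  have hx1 := hann h hx hrad
  have hx1' := hann h' hx' (by rw [heq]; exact hrad)
  exact node_sub_inE0 ha0 ha h h' hx1 hx1' (node_same_class ha0 ha hE hE' hx1 hx1' heq hcross)

/-- **Main theorem.**  Two integral points with singular reduction and the same invariants differ
by a point of `E₀`. -/
theorem sub_inE0 [IsAlgClosed K] (h2 : (2 : K) ≠ 0) {W : WeierstrassCurve K}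
    (hW : IntegralCoeffs W.toAffine v) (hc₄ : v W.c₄ = 1) (hΔ : W.Δ ≠ 0)
    {x y x' y' : K} (h : W.toAffine.Nonsingular x y) (h' : W.toAffine.Nonsingular x' y')
    (hx : v x ≤ 1) (hy : v y ≤ 1) (hx' : v x' ≤ 1)
    (hrad : rad W v x y < 1) (heq : rad W v x' y' = rad W v x y)
    (hcross : v (gX W x y * gY W x' y' - gX W x' y' * gY W x y) < rad W v x y * rad W v x y) :
    InE0 W.toAffine v (Point.some x' y' h' - Point.some x y h) := by
  have hG : v (gX W x y) < 1 := lt_of_le_of_lt (le_max_left _ _) hrad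
  have hH : v (gY W x y) < 1 := lt_of_le_of_lt (le_max_right _ _) hrad
  obtain ⟨C, a, hu, hr, hs, ht, ha0, ha, hCW⟩ := exists_nodeForm h2 hW hc₄ hΔ h.1 hx hy hG hH
  -- the points in the new coordinates
  obtain ⟨Q, hQ⟩ := (vcPoint W C).surjective (Point.some x y h)
  obtain ⟨Q', hQ'⟩ := (vcPoint W C).surjective (Point.some x' y' h')
  rcases Q with _ | ⟨X, Y, hXY⟩
  · change (vcPoint W C) 0 = _ at hQ
    rw [vcPoint_zero] at hQ; exact absurd hQ.symm (Point.some_ne_zero h)
  rcases Q' with _ | ⟨X', Y', hXY'⟩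
  · change (vcPoint W C) 0 = _ at hQ'
    rw [vcPoint_zero] at hQ'; exact absurd hQ'.symm (Point.some_ne_zero h')
  have hQc := hQ
  have hQc' := hQ'
  rw [vcPoint_some, Point.some.injEq] at hQc hQc'
  obtain ⟨eX, eY⟩ := hQc
  obtain ⟨eX', eY'⟩ := hQc'
  have hN : IntegralCoeffs (C • W).toAffine v := by rw [hCW]; exact nodeCurve_integral ha
  have hXv : v X ≤ 1 := (val_vcX_le hu hr).mp (by rw [eX]; exact hx)
  have hXv' : v X' ≤ 1 := (val_vcX_le hu hr).mp (by rw [eX']; exact hx')
  have hr1 : rad (C • W) v X Y = rad W v x y := by rw [← rad_vc hu hs, eX, eY]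
  have hr1' : rad (C • W) v X' Y' = rad W v x' y' := by rw [← rad_vc hu hs, eX', eY']
  have hc1 : v (gX (C • W) X Y * gY (C • W) X' Y' - gX (C • W) X' Y' * gY (C • W) X Y)
      = v (gX W x y * gY W x' y' - gX W x' y' * gY W x y) := by
    rw [← val_cross_vc hu, eX, eY, eX', eY']
  have key := node_sub_inE0' hCW ha0 ha hXY hXY' hXv hXv' (by rw [hr1]; exact hrad)
    (by rw [hr1, hr1', heq]) (by rw [hc1, hr1]; exact hcross)
  have := inE0_vcPoint hu hr hs hN _ key
  rwa [map_sub, hQ, hQ'] at this

end Fermat.Agent.S59.H240
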