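import Fermat.Agent.S59.H240.Node.Basic
import Mathlib.FieldTheory.IsAlgClosed.Basic
import Mathlib.Algebra.Polynomial.Degree.SmallDegree

/-!
# S59 / CR-I (helper240): a small root of `4 X³ + B₂ X² + B₄ X + B₆`

`K` algebraically closed with a valuation `v`, `4 ≠ 0`, `v B₂ = 1`, `v B₄ < 1`, `v B₆ < 1`:
the cubic `4 X³ + B₂ X² + B₄ X + B₆` has a root `ε` with `v ε < 1` (uniformly in the residue
characteristic; in residue characteristic `2` the third root has `v (4 ε) = 1`).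
Also: integral roots of monic quadratics.
-/

set_option autoImplicit false
set_option linter.unusedSectionVars false

namespace Fermat.Agent.S59.H240

open Polynomial

variable {K : Type*} [Field K] {Γ₀ : Type*} [LinearOrderedCommGroupWithZero Γ₀]
  {v : Valuation K Γ₀}

lemma exists_cubic_root [IsAlgClosed K] {c₃ c₂ c₁ c₀ : K} (h : c₃ ≠ 0) :
    ∃ x : K, c₃ * x ^ 3 + c₂ * x ^ 2 + c₁ * x + c₀ = 0 := by
  have hdeg : (C c₃ * X ^ 3 + C c₂ * X ^ 2 + C c₁ * X + C c₀ : K[X]).degree ≠ 0 := by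
    rw [degree_cubic h]; decide
  obtain ⟨x, hx⟩ := IsAlgClosed.exists_root _ hdeg
  refine ⟨x, ?_⟩
  simpa [IsRoot] using hx

lemma exists_quadratic_root [IsAlgClosed K] {c₂ c₁ c₀ : K} (h : c₂ ≠ 0) :
    ∃ x : K, c₂ * x ^ 2 + c₁ * x + c₀ = 0 := by
  have hdeg : (C c₂ * X ^ 2 + C c₁ * X + C c₀ : K[X]).degree ≠ 0 := by
    rw [degree_quadratic h]; decide
  obtain ⟨x, hx⟩ := IsAlgClosed.exists_root _ hdeg
  refine ⟨x, ?_⟩
  simpa [IsRoot] using hx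

/-- A root of a monic quadratic with integral coefficients is integral. -/
lemma val_le_one_of_monic_quadratic {c₁ c₀ s : K} (h1 : v c₁ ≤ 1) (h0 : v c₀ ≤ 1)
    (hs : s ^ 2 + c₁ * s + c₀ = 0) : v s ≤ 1 := by
  by_contra hlt
  rw [not_le] at hlt
  have hs0 : 0 < v s := lt_trans zero_lt_one hlt
  have e : s ^ 2 = -(c₁ * s + c₀) := by linear_combination hs
  have h2 : v (s ^ 2) ≤ v s := by
    rw [e, Valuation.map_neg]
    refine vadd_le ?_ (h0.trans hlt.le)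
    exact vmul_le_of_le_one_left h1
  rw [map_pow, pow_two] at h2
  have h3 : v s * 1 < v s * v s := mul_lt_mul_of_pos_left hlt hs0
  rw [mul_one] at h3
  exact absurd h2 (not_le.mpr h3)

/-- A root of a monic quadratic with coefficients in the maximal ideal lies in the maximal
ideal. -/
lemma val_lt_one_of_monic_quadratic {c₁ c₀ s : K} (h0 : v c₀ < 1)
    (hs : s * (s + c₁) = c₀) : v s < 1 ∨ v (s + c₁) < 1 := by
  by_contra hcon
  rw [not_or, not_lt, not_lt] at hcon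
  have := congrArg v hs
  rw [map_mul] at this
  have h2 : (1 : Γ₀) ≤ v s * v (s + c₁) := by
    calc (1 : Γ₀) = 1 * 1 := (one_mul 1).symm
      _ ≤ v s * v (s + c₁) := mul_le_mul' hcon.1 hcon.2
  rw [this] at h2
  exact absurd h0 (not_lt.mpr h2)

/-- **Small root.** -/
theorem exists_small_root [IsAlgClosed K] (h4 : (4 : K) ≠ 0) {B₂ B₄ B₆ : K}
    (hB₂ : v B₂ = 1) (hB₄ : v B₄ < 1) (hB₆ : v B₆ < 1) :
    ∃ ε : K, 4 * ε ^ 3 + B₂ * ε ^ 2 + B₄ * ε + B₆ = 0 ∧ v ε < 1 := by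
  obtain ⟨ε₁, h₁⟩ := exists_cubic_root (c₃ := (4 : K)) (c₂ := B₂) (c₁ := B₄) (c₀ := B₆) h4
  by_cases hsmall : v ε₁ < 1
  · exact ⟨ε₁, h₁, hsmall⟩
  rw [not_lt] at hsmall
  have hε₁0 : ε₁ ≠ 0 := by
    rintro rfl
    rw [map_zero] at hsmall
    exact absurd hsmall (not_le.mpr zero_lt_one)
  have hpos : 0 < v ε₁ := (Valuation.pos_iff v).mpr hε₁0
  -- `1 ≤ v (4 ε₁)`
  have h4ε : 1 ≤ v (4 * ε₁) := by
    by_contra hlt
    rw [not_le] at hlt
    have e : B₂ * ε₁ ^ 2 = -(4 * ε₁ * ε₁ ^ 2 + (B₄ * ε₁ + B₆)) := by linear_combination h₁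
    have hl : v (B₂ * ε₁ ^ 2) = v (ε₁ ^ 2) := by rw [map_mul, hB₂, one_mul]
    have hsq : v ε₁ ≤ v (ε₁ ^ 2) := by
      rw [map_pow, pow_two]
      calc v ε₁ = 1 * v ε₁ := (one_mul _).symm
        _ ≤ v ε₁ * v ε₁ := mul_le_mul' hsmall le_rfl
    have hsq0 : 0 < v (ε₁ ^ 2) := lt_of_lt_of_le hpos hsq
    have hr : v (-(4 * ε₁ * ε₁ ^ 2 + (B₄ * ε₁ + B₆))) < v (ε₁ ^ 2) := by
      rw [Valuation.map_neg]
      refine vadd_lt ?_ (vadd_lt ?_ ?_)
      · rw [map_mul]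
        calc v (4 * ε₁) * v (ε₁ ^ 2) < 1 * v (ε₁ ^ 2) := mul_lt_mul_of_pos_right hlt hsq0
          _ = v (ε₁ ^ 2) := one_mul _
      · rw [map_mul]
        calc v B₄ * v ε₁ < 1 * v ε₁ := mul_lt_mul_of_pos_right hB₄ hpos
          _ = v ε₁ := one_mul _
          _ ≤ v (ε₁ ^ 2) := hsq
      · exact lt_of_lt_of_le hB₆ (hsmall.trans hsq)
    rw [← e, hl] at hr
    exact lt_irrefl _ hr
  -- the quadratic factor
  set c : K := 4 * ε₁ + B₂ with hc
  set d : K := 4 * ε₁ ^ 2 + B₂ * ε₁ + B₄ with hd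
  have hd1 : ε₁ * d = -B₆ := by rw [hd]; linear_combination h₁
  have hc1 : ε₁ ^ 2 * c = -(B₄ * ε₁ + B₆) := by rw [hc]; linear_combination h₁
  have hvd : v d * v ε₁ < 1 := by
    have := congrArg v hd1
    rw [map_mul, Valuation.map_neg, mul_comm] at this
    rw [this]; exact hB₆
  have hvc : v c * v ε₁ < 1 := by
    have h1 := congrArg v hc1
    rw [map_mul, Valuation.map_neg, map_pow, pow_two] at h1
    have h2 : v (B₄ * ε₁ + B₆) < v ε₁ := by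
      refine vadd_lt ?_ (lt_of_lt_of_le hB₆ hsmall)
      rw [map_mul]
      calc v B₄ * v ε₁ < 1 * v ε₁ := mul_lt_mul_of_pos_right hB₄ hpos
        _ = v ε₁ := one_mul _
    rw [← h1] at h2
    -- `v ε₁ * v ε₁ * v c < v ε₁`
    by_contra hge
    rw [not_lt] at hge
    have : v ε₁ * 1 ≤ v ε₁ * (v c * v ε₁) := mul_le_mul' le_rfl hge
    rw [mul_one] at this
    have e2 : v ε₁ * (v c * v ε₁) = v ε₁ * v ε₁ * v c := by
      rw [mul_comm (v c) (v ε₁), ← mul_assoc]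
    rw [e2] at this
    exact absurd h2 (not_lt.mpr this)
  obtain ⟨ε₂, h₂⟩ := exists_quadratic_root (c₂ := (4 : K)) (c₁ := c) (c₀ := d) h4
  refine ⟨ε₂, ?_, ?_⟩
  · have : 4 * ε₂ ^ 3 + B₂ * ε₂ ^ 2 + B₄ * ε₂ + B₆
        = (ε₂ - ε₁) * (4 * ε₂ ^ 2 + c * ε₂ + d) + (4 * ε₁ ^ 3 + B₂ * ε₁ ^ 2 + B₄ * ε₁ + B₆) := by
      rw [hc, hd]; ring
    rw [this, h₂, h₁, mul_zero, add_zero]
  · by_contra hbig
    rw [not_lt] at hbig
    have hε₂0 : ε₂ ≠ 0 := by
      rintro rfl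
      rw [map_zero] at hbig
      exact absurd hbig (not_le.mpr zero_lt_one)
    have hpos₂ : 0 < v ε₂ := (Valuation.pos_iff v).mpr hε₂0
    have e : 4 * ε₁ * ε₂ ^ 2 = -(c * ε₁ * ε₂ + d * ε₁) := by linear_combination ε₁ * h₂
    have hL : v ε₂ ≤ v (4 * ε₁ * ε₂ ^ 2) := by
      rw [map_mul, map_pow, pow_two]
      calc v ε₂ = 1 * (1 * v ε₂) := by rw [one_mul, one_mul]
        _ ≤ v (4 * ε₁) * (v ε₂ * v ε₂) := mul_le_mul' h4ε (mul_le_mul' hbig le_rfl)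
    have hR : v (-(c * ε₁ * ε₂ + d * ε₁)) < v ε₂ := by
      rw [Valuation.map_neg]
      refine vadd_lt ?_ ?_
      · rw [map_mul, map_mul]
        calc v c * v ε₁ * v ε₂ < 1 * v ε₂ := mul_lt_mul_of_pos_right hvc hpos₂
          _ = v ε₂ := one_mul _
      · rw [map_mul]
        exact lt_of_lt_of_le hvd hbig
    rw [← e] at hR
    exact absurd hL (not_le.mpr hR)

end Fermat.Agent.S59.H240
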