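import Fermat.Agent.S59.H240.Node.Curve
import Fermat.Agent.S59.H240.Node.SmallRoot
import Fermat.Agent.S05.SameRed
import Mathlib.AlgebraicGeometry.EllipticCurve.VariableChange

/-!
# S59 / CR-I (helper240): existence of the nodal normal form

`K` algebraically closed with a valuation `v`, `2 ≠ 0`; `W` a Weierstrass curve with integral
coefficients, `v c₄ = 1`, `Δ ≠ 0`, and an integral point `(x₀, y₀)` of `W` whose reduction is
singular (`v gX < 1`, `v gY < 1`).  Then there is an integral change of variables `C`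
(`v u = 1`, `r s t` integral) with `C • W = nodeCurve a`, `0 < v a < 1`.

Construction: `r = e` a root of the 2-division polynomial with `e ≡ x₀`, `t = -(a₁ e + a₃)/2`,
`s` a root of `s² + a₁ s - (a₂ + 3 e)`, `u = a₁ + 2 s`.
-/

set_option autoImplicit false
set_option linter.unusedSectionVars false
set_option linter.unusedVariables false

namespace Fermat.Agent.S59.H240

open WeierstrassCurve WeierstrassCurve.Affine
open Fermat.Agent.S05.SameRed (IntegralCoeffs)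

variable {K : Type*} [Field K] {Γ₀ : Type*} [LinearOrderedCommGroupWithZero Γ₀]
  {v : Valuation K Γ₀}

section identities

variable (W : WeierstrassCurve K) (x y : K)

lemma gY_sq {x y : K} (h : W.toAffine.Equation x y) :
    gY W x y ^ 2 = 4 * x ^ 3 + W.b₂ * x ^ 2 + 2 * W.b₄ * x + W.b₆ := by
  rw [Affine.equation_iff] at h
  simp only [gY, WeierstrassCurve.b₂, WeierstrassCurve.b₄, WeierstrassCurve.b₆]
  linear_combination 4 * h

lemma twoDiv_deriv :
    12 * x ^ 2 + 2 * W.b₂ * x + 2 * W.b₄ = 2 * W.a₁ * gY W x y - 4 * gX W x y := by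
  simp only [gX, gY, WeierstrassCurve.b₂, WeierstrassCurve.b₄]
  ring

lemma c₄_shift : (W.b₂ + 12 * x) ^ 2 = W.c₄ + 12 * (12 * x ^ 2 + 2 * W.b₂ * x + 2 * W.b₄) := by
  simp only [WeierstrassCurve.c₄]
  ring

end identities

lemma val_eq_one_of_sq {g : Γ₀} (h : g * g = 1) : g = 1 := by
  rcases lt_trichotomy g 1 with hlt | heq | hgt
  · exfalso
    have : g * g < 1 := by
      calc g * g ≤ g * 1 := mul_le_mul' le_rfl hlt.le
        _ = g := mul_one _
        _ < 1 := hlt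
    exact absurd h this.ne
  · exact heq
  · exfalso
    have : 1 < g * g := by
      calc (1 : Γ₀) < g := hgt
        _ = g * 1 := (mul_one _).symm
        _ ≤ g * g := mul_le_mul' le_rfl hgt.le
    exact absurd h this.ne'

lemma vnatmul_le {n : ℕ} {a : K} {g : Γ₀} (ha : v a ≤ g) : v ((n : K) * a) ≤ g :=
  (vmul_le_of_le_one_left (vnat_le_one n)).trans ha

lemma vnatmul_lt {n : ℕ} {a : K} {g : Γ₀} (ha : v a < g) : v ((n : K) * a) < g :=
  lt_of_le_of_lt (vmul_le_of_le_one_left (vnat_le_one n)) ha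

lemma vmul_le_one {a b : K} (ha : v a ≤ 1) (hb : v b ≤ 1) : v (a * b) ≤ 1 := by
  rw [map_mul]; exact mul_le_one' ha hb

lemma vpow_le_one {a : K} (ha : v a ≤ 1) (n : ℕ) : v (a ^ n) ≤ 1 := by
  rw [map_pow]; exact pow_le_one₀ zero_le ha

lemma vmul_lt_one_left {a b : K} (ha : v a < 1) (hb : v b ≤ 1) : v (a * b) < 1 := by
  rw [map_mul]
  exact lt_of_le_of_lt (mul_le_of_le_one_right' hb) ha

lemma vmul_lt_one_right {a b : K} (ha : v a ≤ 1) (hb : v b < 1) : v (a * b) < 1 := by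
  rw [map_mul]
  exact lt_of_le_of_lt (mul_le_of_le_one_left' ha) hb

/-- **Existence of the nodal normal form.** -/
theorem exists_nodeForm [IsAlgClosed K] (h2 : (2 : K) ≠ 0) {W : WeierstrassCurve K}
    (hW : IntegralCoeffs W.toAffine v) (hc₄ : v W.c₄ = 1) (hΔ : W.Δ ≠ 0)
    {x₀ y₀ : K} (h₀ : W.toAffine.Equation x₀ y₀) (hx₀ : v x₀ ≤ 1) (hy₀ : v y₀ ≤ 1)
    (hG₀ : v (gX W x₀ y₀) < 1) (hH₀ : v (gY W x₀ y₀) < 1) :
    ∃ (C : VariableChange K) (a : K), v (C.u : K) = 1 ∧ v C.r ≤ 1 ∧ v C.s ≤ 1 ∧ v C.t ≤ 1 ∧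
      a ≠ 0 ∧ v a < 1 ∧ C • W = nodeCurve a := by
  have h4 : (4 : K) ≠ 0 := by
    have : (4 : K) = 2 * 2 := by norm_num
    rw [this]; exact mul_ne_zero h2 h2
  have ha₁ := hW.a₁
  have ha₂ := hW.a₂
  have ha₃ := hW.a₃
  have ha₄ := hW.a₄
  have ha₆ := hW.a₆
  have hv2 : v (2 : K) ≤ 1 := vtwo_le_one
  have hv3 : v (3 : K) ≤ 1 := vthree_le_one
  have hv4 : v (4 : K) ≤ 1 := by simpa using vnat_le_one (v := v) 4
  have hv12 : v (12 : K) ≤ 1 := by simpa using vnat_le_one (v := v) 12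
  have hv48 : v (48 : K) ≤ 1 := by simpa using vnat_le_one (v := v) 48
  -- Step A: the root `e` of the 2-division polynomial
  obtain ⟨B₂, hB₂⟩ : ∃ B₂ : K, B₂ = W.b₂ + 12 * x₀ := ⟨_, rfl⟩
  obtain ⟨B₄, hB₄⟩ : ∃ B₄ : K, B₄ = 12 * x₀ ^ 2 + 2 * W.b₂ * x₀ + 2 * W.b₄ := ⟨_, rfl⟩
  obtain ⟨B₆, hB₆⟩ : ∃ B₆ : K, B₆ = 4 * x₀ ^ 3 + W.b₂ * x₀ ^ 2 + 2 * W.b₄ * x₀ + W.b₆ := ⟨_, rfl⟩
  have hB₆v : v B₆ < 1 := by
    rw [hB₆, ← gY_sq W h₀, map_pow]
    exact pow_lt_one₀ zero_le hH₀ (by norm_num)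
  have hB₄v : v B₄ < 1 := by
    rw [hB₄, twoDiv_deriv W x₀ y₀]
    refine vsub_lt ?_ ?_
    · rw [mul_assoc]
      exact vmul_lt_one_right hv2 (vmul_lt_one_right ha₁ hH₀)
    · exact vmul_lt_one_right hv4 hG₀
  have hB₂v : v B₂ = 1 := by
    have e := c₄_shift W x₀
    rw [← hB₂, ← hB₄] at e
    have h1 : v (B₂ ^ 2) = 1 := by
      rw [e, vadd_eq_left, hc₄]
      rw [hc₄]
      exact vmul_lt_one_right hv12 hB₄v
    rw [map_pow, pow_two] at h1
    exact val_eq_one_of_sq h1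
  obtain ⟨ε, hε, hεv⟩ := exists_small_root h4 hB₂v hB₄v hB₆v
  obtain ⟨e, he⟩ : ∃ e : K, e = x₀ + ε := ⟨_, rfl⟩
  have hev : v e ≤ 1 := by rw [he]; exact vadd_le hx₀ hεv.le
  have hFe : 4 * e ^ 3 + W.b₂ * e ^ 2 + 2 * W.b₄ * e + W.b₆ = 0 := by
    rw [he, ← hε, hB₂, hB₄, hB₆]; ring
  -- Step B: the 2-torsion point `(e, t)`
  obtain ⟨t, ht⟩ : ∃ t : K, t = -(W.a₁ * e + W.a₃) / 2 := ⟨_, rfl⟩
  have h2t : 2 * t = -(W.a₁ * e + W.a₃) := by rw [ht]; field_simp
  have hgY : gY W e t = 0 := by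
    simp only [gY]; linear_combination h2t
  have hEq : W.toAffine.Equation e t := by
    rw [Affine.equation_iff]
    have hF := hFe
    simp only [WeierstrassCurve.b₂, WeierstrassCurve.b₄, WeierstrassCurve.b₆] at hF
    have h4t : 4 * (t ^ 2 + W.a₁ * e * t + W.a₃ * t) =
        4 * (e ^ 3 + W.a₂ * e ^ 2 + W.a₄ * e + W.a₆) := by
      linear_combination (2 * t + W.a₁ * e + W.a₃) * h2t - hF
    exact mul_left_cancel₀ h4 h4t
  -- `δ = t - y₀` is small
  obtain ⟨δ, hδ⟩ : ∃ δ : K, δ = t - y₀ := ⟨_, rfl⟩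
  obtain ⟨m, hm⟩ : ∃ m : K, m = gY W x₀ y₀ + W.a₁ * ε := ⟨_, rfl⟩
  obtain ⟨m', hm'⟩ : ∃ m' : K, m' = ε * (e ^ 2 + e * x₀ + x₀ ^ 2 + W.a₂ * (e + x₀) + W.a₄ - W.a₁ * y₀) := ⟨_, rfl⟩
  have hmv : v m < 1 := by rw [hm]; exact vadd_lt hH₀ (vmul_lt_one_right ha₁ hεv)
  have hm'v : v m' < 1 := by
    rw [hm']
    refine vmul_lt_one_left hεv ?_
    refine vsub_le (vadd_le (vadd_le (vadd_le (vadd_le ?_ ?_) ?_) ?_) ha₄) (vmul_le_one ha₁ hy₀)
    · exact vpow_le_one hev 2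
    · exact vmul_le_one hev hx₀
    · exact vpow_le_one hx₀ 2
    · exact vmul_le_one ha₂ (vadd_le hev hx₀)
  have hδm : δ * (δ + m) = m' := by
    have e1 := (Affine.equation_iff e t).mp hEq
    have e0 := (Affine.equation_iff x₀ y₀).mp h₀
    rw [hδ, hm, hm']
    simp only [gY]
    have hε' : ε = e - x₀ := by rw [he]; ring
    rw [hε']
    linear_combination e1 - e0
  have hδv : v δ < 1 := by
    by_contra hge
    rw [not_lt] at hge
    have h1 : v (δ + m) = v δ := vadd_eq_left (lt_of_lt_of_le hmv hge)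
    have h3 := congrArg v hδm
    rw [map_mul, h1] at h3
    have h5 : (1 : Γ₀) ≤ v δ * v δ := by
      calc (1 : Γ₀) = 1 * 1 := (one_mul 1).symm
        _ ≤ v δ * v δ := mul_le_mul' hge hge
    rw [h3] at h5
    exact absurd hm'v (not_lt.mpr h5)
  have htv : v t ≤ 1 := by
    have : t = y₀ + δ := by rw [hδ]; ring
    rw [this]; exact vadd_le hy₀ hδv.le
  -- `g_T = gX (e, t)` is small and nonzero
  obtain ⟨gT, hgT⟩ : ∃ gT : K, gT = gX W e t := ⟨_, rfl⟩
  have hgTv : v gT < 1 := by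
    have : gT = gX W x₀ y₀ + (W.a₁ * δ - ε * (3 * (e + x₀) + 2 * W.a₂)) := by
      rw [hgT, hδ]
      have hε' : ε = e - x₀ := by rw [he]; ring
      rw [hε']
      simp only [gX]; ring
    rw [this]
    refine vadd_lt hG₀ (vsub_lt (vmul_lt_one_right ha₁ hδv) (vmul_lt_one_left hεv ?_))
    exact vadd_le (vmul_le_one hv3 (vadd_le hev hx₀)) (vmul_le_one hv2 ha₂)
  have hgT0 : gT ≠ 0 := by
    have hns := (W.toAffine.equation_iff_nonsingular_of_Δ_ne_zero hΔ).mp hEq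
    rw [Affine.nonsingular_iff'] at hns
    rcases hns.2 with h | h
    · rw [hgT]; exact h
    · exact absurd hgY h
  -- Step C: the shear `s`
  obtain ⟨s, hs⟩ := exists_quadratic_root (c₂ := (1 : K)) (c₁ := W.a₁) (c₀ := -(W.a₂ + 3 * e))
    one_ne_zero
  have hs' : s ^ 2 + W.a₁ * s + -(W.a₂ + 3 * e) = 0 := by linear_combination hs
  have hsv : v s ≤ 1 :=
    val_le_one_of_monic_quadratic ha₁ (vneg_le (vadd_le ha₂ (vmul_le_one hv3 hev))) hs'
  -- Step D: the scaling `u`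
  obtain ⟨u, hu⟩ : ∃ u : K, u = W.a₁ + 2 * s := ⟨_, rfl⟩
  have hu2 : u ^ 2 = W.b₂ + 12 * e := by
    rw [hu]; simp only [WeierstrassCurve.b₂]; linear_combination 4 * hs'
  have hu4 : (u ^ 2) ^ 2 = W.c₄ - 48 * gT := by
    rw [hu2, c₄_shift W e, twoDiv_deriv W e t, hgY, hgT]; ring
  have huv : v u = 1 := by
    have h1 : v ((u ^ 2) ^ 2) = 1 := by
      rw [hu4, sub_eq_add_neg, vadd_eq_left, hc₄]
      rw [hc₄, Valuation.map_neg]
      exact vmul_lt_one_right hv48 hgTv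
    rw [map_pow, pow_two] at h1
    have h2' := val_eq_one_of_sq h1
    rw [map_pow, pow_two] at h2'
    exact val_eq_one_of_sq h2'
  have hu0 : u ≠ 0 := by
    rintro h0
    rw [h0, map_zero] at huv
    exact zero_ne_one huv
  -- Step E: the change of variables
  refine ⟨⟨Units.mk0 u hu0, e, s, t⟩, -gT / u ^ 4, ?_, hev, hsv, htv, ?_, ?_, ?_⟩
  · simpa using huv
  · exact div_ne_zero (neg_ne_zero.mpr hgT0) (pow_ne_zero 4 hu0)
  · rw [map_div₀, Valuation.map_neg, map_pow, huv, one_pow, div_one]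
    exact hgTv
  · have e1 := (Affine.equation_iff e t).mp hEq
    ext
    · simp only [variableChange_a₁, nodeCurve_a₁, Units.val_inv_eq_inv_val, Units.val_mk0]
      rw [← hu]; field_simp
    · simp only [variableChange_a₂, nodeCurve_a₂, Units.val_inv_eq_inv_val, Units.val_mk0]
      rw [mul_eq_zero]; right
      linear_combination -hs'
    · simp only [variableChange_a₃, nodeCurve_a₃, Units.val_inv_eq_inv_val, Units.val_mk0]
      rw [mul_eq_zero]; right
      linear_combination h2t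
    · simp only [variableChange_a₄, nodeCurve_a₄, Units.val_inv_eq_inv_val, Units.val_mk0]
      rw [hgT]; simp only [gX]
      field_simp
      linear_combination (-s) * h2t
    · simp only [variableChange_a₆, nodeCurve_a₆, Units.val_inv_eq_inv_val, Units.val_mk0]
      rw [mul_eq_zero]; right
      linear_combination -e1

end Fermat.Agent.S59.H240
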